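import Fermat.Agent.UnramifiedGalois.Selmer

/-!
# Fröhlich's theorem

Every finite group embeds in an alternating group `Aₙ` with `n ≡ 3 (mod 4)`, so it is the Galois
group of an extension of totally complex number fields unramified at every place.
-/

set_option autoImplicit false

noncomputable section

namespace Fermat.Agent.UnramifiedGalois

open NumberField

/-- Cayley's embedding, twice over: every finite group embeds in the even permutations of any set
with `4 |G| + 3` elements. -/
theorem exists_even_embedding (G : Type*) [Group G] [Fintype G] {R : Type*} [Fintype R]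
    [DecidableEq R] (hR : Fintype.card R = 4 * Fintype.card G + 3) :
    ∃ f : G →* Equiv.Perm R, Function.Injective f ∧ ∀ g, Equiv.Perm.sign (f g) = 1 := by
  classical
  let e : (G ⊕ G) ⊕ Fin (2 * Fintype.card G + 3) ≃ R := Fintype.equivOfCardEq (by
    rw [Fintype.card_sum, Fintype.card_sum, Fintype.card_fin, hR]
    omega)
  let α : G →* Equiv.Perm G := MulAction.toPermHom G G
  let f : G →* Equiv.Perm R := e.permCongrHom.toMonoidHom.comp
    ((Equiv.Perm.sumCongrHom (G ⊕ G) (Fin (2 * Fintype.card G + 3))).comp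
      (((Equiv.Perm.sumCongrHom G G).comp (α.prod α)).prod 1))
  refine ⟨f, e.permCongrHom.injective.comp (Equiv.Perm.sumCongrHom_injective.comp fun a b h =>
    MulAction.toPerm_injective (β := G)
      (congrArg Prod.fst (Equiv.Perm.sumCongrHom_injective (congrArg Prod.fst h)))), fun g => ?_⟩
  show Equiv.Perm.sign (e.permCongr
    (Equiv.Perm.sumCongr (Equiv.Perm.sumCongr (α g) (α g)) 1)) = 1
  rw [Equiv.Perm.sign_permCongr, Equiv.Perm.sign_sumCongr, Equiv.Perm.sign_sumCongr, map_one,
    mul_one, Int.units_mul_self]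

/-- **Fröhlich**: every finite group is the Galois group of an extension of number fields
unramified at every place. -/
theorem exists_unramified_group (G : Type*) [Group G] [Finite G] :
    ∃ (F L : Type) (_ : Field F) (_ : NumberField F) (_ : Field L) (_ : NumberField L)
      (_ : Algebra F L), IsGalois F L ∧ Nonempty ((L ≃ₐ[F] L) ≃* G) ∧ IsTotallyComplex F ∧
        IsUnramifiedAtInfinitePlaces F L ∧
        ∀ Q : Ideal (𝓞 L), Q.IsPrime → Q ≠ ⊥ → Q.ramificationIdx (𝓞 F) = 1 := by
  classical
  have := Fintype.ofFinite G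
  obtain ⟨f, hf, hsign⟩ := exists_even_embedding G
    (R := Roots (4 * Fintype.card G + 3)) (card_roots (by omega))
  obtain ⟨F, L, i1, i2, i3, i4, i5, hgal, ⟨e⟩, -, hrest⟩ :=
    exists_unramified_of_even (n := 4 * Fintype.card G + 3) (by omega) f.range
      (by rintro _ ⟨g, rfl⟩; exact hsign g)
  exact ⟨F, L, i1, i2, i3, i4, i5, hgal, ⟨e.trans (MonoidHom.ofInjective hf).symm⟩, hrest⟩

/-- **Uchida, Yamamura**: for `n ≡ 3 (mod 4)` an imaginary quadratic field with an unramified
extension with group `Aₙ`. -/
theorem exists_unramified_alternating {n : ℕ} (hn : n % 4 = 3) :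
    ∃ (F L : Type) (_ : Field F) (_ : NumberField F) (_ : Field L) (_ : NumberField L)
      (_ : Algebra F L), IsGalois F L ∧ Nonempty ((L ≃ₐ[F] L) ≃* alternatingGroup (Fin n)) ∧
        Module.finrank ℚ F = 2 ∧ IsTotallyComplex F ∧ IsUnramifiedAtInfinitePlaces F L ∧
        ∀ Q : Ideal (𝓞 L), Q.IsPrime → Q ≠ ⊥ → Q.ramificationIdx (𝓞 F) = 1 := by
  classical
  have hcard : Fintype.card (Roots n) = n := card_roots (by omega)
  have : Nontrivial (Roots n) := Fintype.one_lt_card_iff_nontrivial.1 (by omega)
  obtain ⟨F, L, i1, i2, i3, i4, i5, hgal, ⟨e⟩, hdeg, hrest⟩ :=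
    exists_unramified_of_even hn (alternatingGroup (Roots n))
      fun π hπ => Equiv.Perm.mem_alternatingGroup.1 hπ
  exact ⟨F, L, i1, i2, i3, i4, i5, hgal, ⟨e.trans
    (Fintype.equivFinOfCardEq hcard).altCongrHom⟩, by rw [hdeg, alternatingGroup.index_eq_two],
      hrest⟩

end Fermat.Agent.UnramifiedGalois
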