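import Fermat.Agent.UnramifiedGalois.Basic
import Fermat.Agent.SelmerPolynomial.Galois

/-!
# The extensions cut out by `X ^ n - X - 1`

Inertia acts on the roots by transpositions, so the alternating group meets it trivially; for
`n ≡ 3 (mod 4)` there is one real root and complex conjugation is odd. Hence every subgroup of
`Aₙ` is the group of an extension of number fields unramified at every place.
-/

set_option autoImplicit false

noncomputable section

namespace Fermat.Agent.UnramifiedGalois

open Polynomial NumberField SelmerPolynomial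
open scoped Polynomial

local notation "Qb" => AlgebraicClosure ℚ
local notation "GQ" => AlgebraicClosure ℚ ≃ₐ[ℚ] AlgebraicClosure ℚ

variable {n : ℕ}

/-- `x ^ n = x + 1` has at most one real solution for odd `n ≥ 3`. -/
theorem real_root_unique (hn : 3 ≤ n) (hodd : Odd n) {u v : ℝ} (hu : u ^ n = u + 1)
    (hv : v ^ n = v + 1) : u = v := by
  have one_lt : ∀ x : ℝ, x ^ n = x + 1 → 1 < x := fun x hx => by
    by_contra hle
    push Not at hle
    rcases le_or_gt x 0 with h0 | h0
    · rcases le_or_gt x (-1) with h1 | h1
      · have h2 : (1 : ℝ) ≤ (-x) ^ (n - 1) := one_le_pow₀ (by linarith)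
        have h3 : x ^ n = x * (-x) ^ (n - 1) := by
          rw [Even.neg_pow (Nat.Odd.sub_odd hodd odd_one), ← pow_succ',
            Nat.sub_add_cancel (by omega)]
        nlinarith
      · have h2 : x ^ n ≤ 0 := hodd.pow_nonpos h0
        linarith
    · have h2 : x ^ n ≤ x := pow_le_of_le_one h0.le hle (by omega)
      linarith
  have key : ∀ a b : ℝ, a ^ n = a + 1 → b ^ n = b + 1 → ¬ a < b := fun a b ha hb hab => by
    have h1 := one_lt a ha
    have h2 : a ^ (n - 1) < b ^ (n - 1) := pow_lt_pow_left₀ hab (by linarith) (by omega)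
    have ha' : a * a ^ (n - 1) = a + 1 := by rw [← pow_succ', Nat.sub_add_cancel (by omega), ha]
    have hb' : b * b ^ (n - 1) = b + 1 := by rw [← pow_succ', Nat.sub_add_cancel (by omega), hb]
    nlinarith [mul_lt_mul_of_pos_left h2 (by linarith : (0 : ℝ) < a)]
  exact le_antisymm (not_lt.1 (key v u hv hu)) (not_lt.1 (key u v hu hv))

/-- The roots of Selmer's polynomial. -/
abbrev Roots (n : ℕ) : Type := (((selmer n).map (Int.castRingHom ℚ)).rootSet Qb)

/-- A root satisfies the equation. -/
theorem roots_eq (x : Roots n) : (x : Qb) ^ n = (x : Qb) + 1 := by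
  have h : aeval (x : Qb) ((selmer n).map (Int.castRingHom ℚ)) = 0 := (mem_rootSet.1 x.2).2
  generalize (x : Qb) = y at h ⊢
  rw [map_selmer] at h
  simp only [map_sub, map_pow, aeval_X, map_one] at h
  linear_combination h

theorem card_roots (hn : 2 ≤ n) : Fintype.card (Roots n) = n := by
  rw [card_rootSet_eq_natDegree (irreducible_selmer hn).separable (IsAlgClosed.splits _),
    (selmer_monic hn).natDegree_map, natDegree_selmer hn]

variable [DecidableEq (Roots n)]

/-- For `n ≡ 3 (mod 4)` complex conjugation is an odd permutation of the roots. -/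
theorem sign_complexConjugation (hn : n % 4 = 3) :
    Equiv.Perm.sign (VanDerWaerden.rootsAction (L := Qb) (selmer n) complexConjugation) = -1 := by
  set π := VanDerWaerden.rootsAction (L := Qb) (selmer n) complexConjugation with hπ
  have h2 : π ^ 2 = 1 := by rw [hπ, ← map_pow, complexConjugation_sq, map_one]
  have hle : Fintype.card (Function.fixedPoints π) ≤ 1 := by
    refine Fintype.card_le_one_iff.2 fun x y => Subtype.ext (Subtype.ext ?_)
    have hreal : ∀ z : Function.fixedPoints π,
        ∃ r : ℝ, (r : ℂ) = complexEmbedding (z.1 : Qb) ∧ r ^ n = r + 1 := fun z => by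
      have hz : starRingEnd ℂ (complexEmbedding (z.1 : Qb)) = complexEmbedding (z.1 : Qb) := by
        rw [← complexEmbedding_complexConjugation]
        exact congrArg (fun w : Roots n => complexEmbedding (w : Qb)) z.2
      obtain ⟨r, hr⟩ := Complex.conj_eq_iff_real.1 hz
      refine ⟨r, hr.symm, Complex.ofReal_injective ?_⟩
      rw [Complex.ofReal_pow, Complex.ofReal_add, Complex.ofReal_one, ← hr, ← map_pow,
        roots_eq, map_add, map_one]
    obtain ⟨u, hu, hu'⟩ := hreal x
    obtain ⟨v, hv, hv'⟩ := hreal y
    exact complexEmbedding.toRingHom.injective (hu.symm.trans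
      ((congrArg _ (real_root_unique (by omega) (Nat.odd_iff.2 (by omega)) hu' hv')).trans hv))
  have hmod := Equiv.Perm.card_compl_support_modEq (p := 2) (n := 1) (σ := π) (by simpa using h2)
  have hcard : Fintype.card (Function.fixedPoints π) = π.supportᶜ.card := by
    rw [Equiv.Perm.card_fixedPoints, Equiv.Perm.sum_cycleType, Finset.card_compl]
  rw [card_roots (by omega : 2 ≤ n), ← hcard, Nat.ModEq] at hmod
  rw [Equiv.Perm.sign_of_pow_two_eq_one h2, card_roots (by omega : 2 ≤ n)]
  exact Odd.neg_one_pow (Nat.odd_iff.2 (by omega))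

/-- **Unramified extensions from the alternating group**: for `n ≡ 3 (mod 4)` every subgroup of
the even permutations of the roots is the group of an extension unramified at every place. -/
theorem exists_unramified_of_even (hn : n % 4 = 3) (H : Subgroup (Equiv.Perm (Roots n)))
    (hH : ∀ π ∈ H, Equiv.Perm.sign π = 1) :
    ∃ (F L : Type) (_ : Field F) (_ : NumberField F) (_ : Field L) (_ : NumberField L)
      (_ : Algebra F L), IsGalois F L ∧ Nonempty ((L ≃ₐ[F] L) ≃* H) ∧
        Module.finrank ℚ F = H.index ∧ IsTotallyComplex F ∧ IsUnramifiedAtInfinitePlaces F L ∧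
        ∀ Q : Ideal (𝓞 L), Q.IsPrime → Q ≠ ⊥ → Q.ramificationIdx (𝓞 F) = 1 := by
  set ψ := VanDerWaerden.rootsAction (L := Qb) (selmer n)
  have : FiniteDimensional ℚ
      (IntermediateField.adjoin ℚ (((selmer n).map (Int.castRingHom ℚ)).rootSet Qb)) :=
    IntermediateField.finiteDimensional_adjoin fun x _ => Algebra.IsIntegral.isIntegral x
  have hopen : IsOpen (ψ.ker : Set GQ) := Subgroup.isOpen_mono (fun σ hσ =>
    MonoidHom.mem_ker.2 (Equiv.ext fun x => Subtype.ext
      ((IntermediateField.mem_fixingSubgroup_iff _ _).1 hσ x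
        (IntermediateField.subset_adjoin ℚ _ x.2))))
    (IntermediateField.fixingSubgroup_isOpen
      (IntermediateField.adjoin ℚ (((selmer n).map (Int.castRingHom ℚ)).rootSet Qb)))
  refine exists_unramified_extension ψ (surjective_rootsAction (by omega)) hopen H
    (fun q hq A hA σ hσ hσH => ?_) fun g hg => ?_
  · rcases inertia_isSwap (by omega : 2 ≤ n) hσ with h | h
    · exact h
    · exact absurd ((hH _ hσH).symm.trans h.sign_eq) (by decide)
  · refine absurd (hH _ hg) ?_
    rw [map_mul, map_mul, map_mul, map_mul, map_inv, map_inv, sign_complexConjugation hn,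
      mul_right_comm, inv_mul_cancel, one_mul]
    decide

end Fermat.Agent.UnramifiedGalois
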