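import Fermat.Agent.UnramifiedGalois.Froehlich
import Fermat.Agent.ArtinReciprocity.Abelian

/-!
# Prescribed quotients of class groups

An abelian extension of a totally complex field unramified at every prime has conductor one, so
its Galois group is a quotient of the class group; with Fröhlich's theorem every finite abelian
group is a quotient of the class group of a number field.
-/

set_option autoImplicit false

noncomputable section

namespace Fermat.Agent.UnramifiedGalois

open NumberField IsDedekindDomain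
open FA.Hecke (IsRayElt coprimeIdeals rayClass RayClassGroup rayClass_eq_iff rayClass_surjective)
open scoped nonZeroDivisors

/-- For a totally complex field the ray class group modulo `1` is a quotient of the class group. -/
theorem exists_classGroup_to_rayClassGroup (K : Type*) [Field K] [NumberField K]
    [IsTotallyComplex K] :
    ∃ f : ClassGroup (𝓞 K) →* RayClassGroup (⊤ : Ideal (𝓞 K)), Function.Surjective f := by
  have hray : ∀ x : 𝓞 K, x ≠ 0 → IsRayElt (⊤ : Ideal (𝓞 K)) x := fun x hx =>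
    ⟨hx, Submodule.mem_top, fun φ => absurd (InfinitePlace.isReal_mk_iff.2
      (by
        rw [ComplexEmbedding.isReal_iff]
        exact RingHom.ext fun y => Complex.conj_ofReal (φ y) :
        ComplexEmbedding.IsReal (Complex.ofRealHom.comp φ)))
      (InfinitePlace.not_isReal_iff_isComplex.2 (IsTotallyComplex.isComplex _))⟩
  have hcop : ∀ I : (Ideal (𝓞 K))⁰, I ∈ coprimeIdeals (⊤ : Ideal (𝓞 K)) := fun I => sup_top_eq _
  have key : ∀ I J : coprimeIdeals (⊤ : Ideal (𝓞 K)), ClassGroup.mk0 I.1 = ClassGroup.mk0 J.1 →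
      rayClass top_ne_bot I = rayClass top_ne_bot J := fun I J h => by
    obtain ⟨x, y, hx, hy, hxy⟩ := (ClassGroup.mk0_eq_mk0_iff).1 h
    exact (rayClass_eq_iff top_ne_bot).2 ⟨x, y, hray x hx, hray y hy, hxy⟩
  choose J hJ using ClassGroup.mk0_surjective (R := 𝓞 K)
  refine ⟨MonoidHom.mk' (fun C => rayClass top_ne_bot ⟨J C, hcop _⟩) fun C D => ?_, fun γ => ?_⟩
  · rw [← map_mul]
    exact key _ _ (by rw [hJ, Submonoid.coe_mul, map_mul, hJ, hJ])
  · obtain ⟨I, rfl⟩ := rayClass_surjective top_ne_bot γ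
    exact ⟨ClassGroup.mk0 I.1, key _ _ (hJ _)⟩

/-- An abelian extension of a totally complex field unramified at every prime is a quotient of the
class group. -/
theorem exists_classGroup_to_galois (K L : Type*) [Field K] [NumberField K] [Field L]
    [NumberField L] [Algebra K L] [IsGalois K L] [IsMulCommutative (L ≃ₐ[K] L)]
    [IsTotallyComplex K]
    (hunr : ∀ Q : Ideal (𝓞 L), Q.IsPrime → Q ≠ ⊥ → Q.ramificationIdx (𝓞 K) = 1) :
    ∃ f : ClassGroup (𝓞 K) →* (L ≃ₐ[K] L), Function.Surjective f := by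
  obtain ⟨𝔪, h𝔪, hiff, ω, hω, -, -⟩ := FA.ArtinRec.exists_artinRayHom (K := K) (L := L)
  have htop : 𝔪 = ⊤ := by
    by_contra hne
    obtain ⟨M, hM, hle⟩ := Ideal.exists_le_maximal 𝔪 hne
    let v : HeightOneSpectrum (𝓞 K) := ⟨M, hM.isPrime, fun h => h𝔪 (le_bot_iff.1 (h ▸ hle))⟩
    obtain ⟨Q, -, hQ⟩ := (hiff v).1 (Ideal.dvd_iff_le.2 hle)
    have hw0 : Q.asIdeal.under (𝓞 K) ≠ ⊥ := Ideal.under_ne_bot _ Q.ne_bot
    have : (Q.asIdeal.under (𝓞 K)).IsMaximal := Ideal.IsPrime.isMaximal inferInstance hw0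
    have : Finite (𝓞 K ⧸ Q.asIdeal.under (𝓞 K)) := Ideal.finiteQuotientOfFreeOfNeBot _ hw0
    have hcard := Ideal.card_inertia_eq_ramificationIdxIn (G := L ≃ₐ[K] L)
      (Q.asIdeal.under (𝓞 K)) Q.asIdeal
    rw [Ideal.ramificationIdxIn_eq_ramificationIdx (Q.asIdeal.under (𝓞 K)) Q.asIdeal (L ≃ₐ[K] L),
      hunr _ Q.isPrime Q.ne_bot] at hcard
    exact hQ (Subgroup.card_eq_one.1 hcard)
  subst htop
  obtain ⟨g, hg⟩ := exists_classGroup_to_rayClassGroup K
  exact ⟨ω.comp g, hω.comp hg⟩

/-- **Every finite abelian group is a quotient of a class group.** -/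
theorem exists_classGroup_quotient (A : Type*) [CommGroup A] [Finite A] :
    ∃ (F : Type) (_ : Field F) (_ : NumberField F), IsTotallyComplex F ∧
      ∃ f : ClassGroup (𝓞 F) →* A, Function.Surjective f := by
  obtain ⟨F, L, _, i2, _, _, _, hgal, ⟨e⟩, hc, -, hunr⟩ := exists_unramified_group A
  have : IsMulCommutative (L ≃ₐ[F] L) :=
    ⟨⟨fun a b => e.injective (by rw [map_mul, map_mul, mul_comm])⟩⟩
  obtain ⟨f, hf⟩ := exists_classGroup_to_galois F L hunr
  exact ⟨F, _, i2, hc, e.toMonoidHom.comp f, e.surjective.comp hf⟩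

end Fermat.Agent.UnramifiedGalois
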