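import Fermat.Agent.GolodShafarevich.Fields

/-!
# Unramified extensions from a quotient of the absolute Galois group

Let `ρ` map the absolute Galois group of `ℚ` onto a finite group `P` and let `H ≤ P` meet the image
of every inertia group trivially and contain no image of a complex conjugation. Then the field of
`H` is totally complex and has a Galois extension with group `H` unramified at every place.
-/

set_option autoImplicit false

noncomputable section

namespace Fermat.Agent.UnramifiedGalois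

open NumberField
open scoped Pointwise

local notation "Qb" => AlgebraicClosure ℚ
local notation "GQ" => AlgebraicClosure ℚ ≃ₐ[ℚ] AlgebraicClosure ℚ

/-- A subfield of `Qb` fixed by no conjugate of complex conjugation is totally complex. -/
theorem isTotallyComplex_of_fixed (F : IntermediateField ℚ Qb) [FiniteDimensional ℚ F]
    (h : ∀ g : GQ, g⁻¹ * complexConjugation * g ∉ F.fixingSubgroup) : IsTotallyComplex F := by
  refine ⟨fun w => InfinitePlace.not_isReal_iff_isComplex.1 fun hw => ?_⟩
  have hreal : ComplexEmbedding.IsReal w.embedding := InfinitePlace.isReal_iff.1 hw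
  let φ : F →ₐ[ℚ] ℂ :=
    { w.embedding with
      commutes' := fun r => DFunLike.congr_fun
        (Subsingleton.elim (w.embedding.comp (algebraMap ℚ F)) (algebraMap ℚ ℂ)) r }
  have hmem : ∀ x : F, φ x ∈ complexEmbedding.fieldRange := fun x => by
    have hs : ((minpoly ℚ x).map (algebraMap ℚ Qb)).Splits := IsAlgClosed.splits _
    have hx : φ x ∈ (minpoly ℚ x).rootSet ℂ := (Polynomial.mem_rootSet).2
      ⟨minpoly.ne_zero (Algebra.IsIntegral.isIntegral x), by
        rw [Polynomial.aeval_algHom_apply, minpoly.aeval, map_zero]⟩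
    rw [← Polynomial.Splits.image_rootSet hs complexEmbedding] at hx
    obtain ⟨z, -, hz⟩ := hx
    exact ⟨z, hz⟩
  let φ' : F →ₐ[ℚ] Qb := (AlgEquiv.ofInjectiveField complexEmbedding).symm.toAlgHom.comp
    (φ.codRestrict complexEmbedding.fieldRange.toSubalgebra hmem)
  have hφ' : ∀ x, complexEmbedding (φ' x) = w.embedding x := fun x =>
    congrArg Subtype.val ((AlgEquiv.ofInjectiveField complexEmbedding).apply_symm_apply
      (φ.codRestrict complexEmbedding.fieldRange.toSubalgebra hmem x))
  have : Normal ℚ Qb := FA.Local.isGalois_qbar.to_normal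
  let g : GQ := AlgEquiv.ofBijective (φ'.liftNormal Qb)
    (Algebra.IsAlgebraic.algHom_bijective _)
  refine h g ((IntermediateField.mem_fixingSubgroup_iff _ _).2 fun x hx => ?_)
  have hgx : g x = φ' ⟨x, hx⟩ := φ'.liftNormal_commutes Qb ⟨x, hx⟩
  have hfix : complexConjugation (g x) = g x := complexEmbedding.toRingHom.injective (by
    show complexEmbedding _ = complexEmbedding _
    rw [complexEmbedding_complexConjugation, hgx, hφ']
    exact RingHom.congr_fun (ComplexEmbedding.isReal_iff.1 hreal) ⟨x, hx⟩)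
  rw [AlgEquiv.mul_apply, AlgEquiv.mul_apply, hfix]
  exact g.symm_apply_apply x

variable {P : Type} [Group P]

/-- The two fields, whatever complex conjugation does: the field `F` of `H` and, over it, the
field `M` of the kernel, unramified at every prime. -/
theorem exists_subfields_of_inertia (ρ : GQ →* P) (hρ : Function.Surjective ρ)
    (hopen : IsOpen (ρ.ker : Set GQ)) (H : Subgroup P)
    (hI : ∀ q : ℕ, q.Prime → ∀ A : ValuationSubring Qb, A.LiesOverPrime q →
      ∀ σ ∈ A.inertiaSubgroupIn ℚ, ρ σ ∈ H → ρ σ = 1) :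
    ∃ (F : IntermediateField ℚ Qb) (_ : NumberField F) (M : IntermediateField F Qb)
      (_ : NumberField M), F.fixingSubgroup = H.comap ρ ∧ IsGalois F M ∧
        Nonempty ((M ≃ₐ[F] M) ≃* H) ∧ Module.finrank ℚ F = H.index ∧
        (∀ σ : GQ, ρ σ = 1 → ∀ x ∈ M, σ x = x) ∧
        ∀ Q : Ideal (𝓞 M), Q.IsPrime → Q ≠ ⊥ → Q.ramificationIdx (𝓞 F) = 1 := by
  have : IsGalois ℚ Qb := FA.Local.isGalois_qbar
  obtain ⟨R, hR, -, -, hRρ⟩ :=
    FA.AbelianInverseGalois.exists_field_of_surjective ρ hρ hopen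
  have hopenH : IsOpen (H.comap ρ : Set GQ) := Subgroup.isOpen_mono (fun σ hσ => by
    rw [Subgroup.mem_comap, MonoidHom.mem_ker.1 hσ]
    exact one_mem H) hopen
  let C : ClosedSubgroup GQ := ⟨H.comap ρ, Subgroup.isClosed_of_isOpen _ hopenH⟩
  set F : IntermediateField ℚ Qb := IntermediateField.fixedField C.1
  have hfix : F.fixingSubgroup = H.comap ρ := InfiniteGalois.fixingSubgroup_fixedField C
  have hFR : F ≤ R := by
    rw [← InfiniteGalois.fixedField_fixingSubgroup R]
    refine IntermediateField.fixedField_antitone fun σ hσ => ?_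
    show ρ σ ∈ H
    rw [(hRρ σ).1 ((IntermediateField.mem_fixingSubgroup_iff _ _).1 hσ)]
    exact one_mem H
  have : FiniteDimensional ℚ F := Module.Finite.of_injective
    (IntermediateField.inclusion hFR).toLinearMap (IntermediateField.inclusion hFR).injective
  have : NumberField F := { }
  have : IsGalois F Qb := IsGalois.tower_top_of_isGalois ℚ F Qb
  let r : (Qb ≃ₐ[F] Qb) →* GQ := MonoidHom.mk' (fun σ => σ.restrictScalars ℚ) fun _ _ => rfl
  have hr : ∀ σ, r σ ∈ F.fixingSubgroup := fun σ =>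
    (IntermediateField.mem_fixingSubgroup_iff _ _).2 fun x hx => σ.commutes ⟨x, hx⟩
  let θ : (Qb ≃ₐ[F] Qb) →* H := (ρ.comp r).codRestrict H fun σ => (hfix ▸ hr σ : r σ ∈ H.comap ρ)
  have hθ : Function.Surjective θ := fun x => by
    obtain ⟨g, hg⟩ := hρ x.1
    have hgF : g ∈ F.fixingSubgroup := by
      rw [hfix, Subgroup.mem_comap, hg]
      exact x.2
    refine ⟨AlgEquiv.ofRingEquiv (f := g.toRingEquiv) fun y =>
      (IntermediateField.mem_fixingSubgroup_iff _ _).1 hgF _ y.2, Subtype.ext ?_⟩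
    rw [← hg]
    exact congrArg ρ (AlgEquiv.ext fun y => rfl)
  let E : IntermediateField F Qb := IntermediateField.extendScalars hFR
  have : FiniteDimensional ℚ E := (inferInstance : FiniteDimensional ℚ R)
  have : FiniteDimensional F E := Module.Finite.of_restrictScalars_finite ℚ F E
  have hθopen : IsOpen (θ.ker : Set (Qb ≃ₐ[F] Qb)) := Subgroup.isOpen_mono
    (fun σ hσ => MonoidHom.mem_ker.2 (Subtype.ext ((hRρ (r σ)).1 fun x hx =>
      (IntermediateField.mem_fixingSubgroup_iff _ _).1 hσ x hx)))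
    (IntermediateField.fixingSubgroup_isOpen E)
  let N : ClosedSubgroup (Qb ≃ₐ[F] Qb) := ⟨θ.ker, Subgroup.isClosed_of_isOpen _ hθopen⟩
  have : N.Normal := θ.normal_ker
  set M : IntermediateField F Qb := IntermediateField.fixedField N.1
  obtain ⟨hMf, hMg⟩ :=
    (InfiniteGalois.isOpen_and_normal_iff_finite_and_isGalois M).mp
      (by rw [InfiniteGalois.fixingSubgroup_fixedField N]; exact ⟨hθopen, θ.normal_ker⟩)
  have : NumberField M := NumberField.of_module_finite F M
  have hM : ∀ σ : GQ, ρ σ = 1 → ∀ x ∈ M, σ x = x := fun σ hσ x hx => by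
    have hσF : σ ∈ F.fixingSubgroup := by
      rw [hfix, Subgroup.mem_comap, hσ]
      exact one_mem H
    refine (IntermediateField.mem_fixedField_iff _ _).1 hx
      (AlgEquiv.ofRingEquiv (f := σ.toRingEquiv) fun y =>
        (IntermediateField.mem_fixingSubgroup_iff _ _).1 hσF _ y.2) ?_
    exact MonoidHom.mem_ker.2 (Subtype.ext ((congrArg ρ (AlgEquiv.ext fun y => rfl)).trans hσ))
  refine ⟨F, inferInstance, M, inferInstance, hfix, hMg,
    ⟨(InfiniteGalois.normalAutEquivQuotient N).symm.trans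
      (QuotientGroup.quotientKerEquivOfSurjective θ hθ)⟩, ?_, hM, ?_⟩
  · rw [IntermediateField.finrank_eq_fixingSubgroup_index, hfix,
      Subgroup.index_comap_of_surjective _ hρ]
  · exact GolodShafarevich.unramifiedPrimes_of_inertia F M fun q hq A hA σ hσI hσF =>
      hM σ (hI q hq A hA σ hσI (by rwa [hfix, Subgroup.mem_comap] at hσF))

/-- **The general construction**, with the field of `H` inside `Qb`. -/
theorem exists_unramified_subfield (ρ : GQ →* P) (hρ : Function.Surjective ρ)
    (hopen : IsOpen (ρ.ker : Set GQ)) (H : Subgroup P)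
    (hI : ∀ q : ℕ, q.Prime → ∀ A : ValuationSubring Qb, A.LiesOverPrime q →
      ∀ σ ∈ A.inertiaSubgroupIn ℚ, ρ σ ∈ H → ρ σ = 1)
    (hc : ∀ g : GQ, ρ (g⁻¹ * complexConjugation * g) ∉ H) :
    ∃ (F : IntermediateField ℚ Qb) (_ : NumberField F) (L : Type) (_ : Field L) (_ : NumberField L)
      (_ : Algebra F L), F.fixingSubgroup = H.comap ρ ∧ IsGalois F L ∧
        Nonempty ((L ≃ₐ[F] L) ≃* H) ∧
        Module.finrank ℚ F = H.index ∧ IsTotallyComplex F ∧ IsUnramifiedAtInfinitePlaces F L ∧
        ∀ Q : Ideal (𝓞 L), Q.IsPrime → Q ≠ ⊥ → Q.ramificationIdx (𝓞 F) = 1 := by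
  obtain ⟨F, i1, M, i2, hfix, hgal, he, hidx, -, hfin⟩ :=
    exists_subfields_of_inertia ρ hρ hopen H hI
  have hcx : IsTotallyComplex F := isTotallyComplex_of_fixed F fun g hg => hc g (by
    rwa [hfix, Subgroup.mem_comap] at hg)
  exact ⟨F, i1, M, inferInstance, i2, inferInstance, hfix, hgal, he, hidx, hcx,
    ⟨fun w => InfinitePlace.isUnramified_iff.2 (Or.inr (IsTotallyComplex.isComplex _))⟩, hfin⟩

/-- **The general construction.** -/
theorem exists_unramified_extension (ρ : GQ →* P) (hρ : Function.Surjective ρ)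
    (hopen : IsOpen (ρ.ker : Set GQ)) (H : Subgroup P)
    (hI : ∀ q : ℕ, q.Prime → ∀ A : ValuationSubring Qb, A.LiesOverPrime q →
      ∀ σ ∈ A.inertiaSubgroupIn ℚ, ρ σ ∈ H → ρ σ = 1)
    (hc : ∀ g : GQ, ρ (g⁻¹ * complexConjugation * g) ∉ H) :
    ∃ (F L : Type) (_ : Field F) (_ : NumberField F) (_ : Field L) (_ : NumberField L)
      (_ : Algebra F L), IsGalois F L ∧ Nonempty ((L ≃ₐ[F] L) ≃* H) ∧
        Module.finrank ℚ F = H.index ∧ IsTotallyComplex F ∧ IsUnramifiedAtInfinitePlaces F L ∧
        ∀ Q : Ideal (𝓞 L), Q.IsPrime → Q ≠ ⊥ → Q.ramificationIdx (𝓞 F) = 1 := by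
  obtain ⟨F, i1, L, i2, i3, i4, -, h⟩ := exists_unramified_subfield ρ hρ hopen H hI hc
  exact ⟨F, L, inferInstance, i1, i2, i3, i4, h⟩

end Fermat.Agent.UnramifiedGalois
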